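import Fermat.Agent.Ribet.Spec
import Fermat.Agent.S54.FrobExists

/-!
# RIBET, piece PL (helper584): places over `q` and Frobenius elements exist

`places : Spec.PlacesStatement`, from the landed S54 library (`S54.exists_frobenius`).
-/

set_option autoImplicit false

namespace Fermat.Agent.Ribet.H584

open Fermat.Agent.Ribet

/-- **PL**: for every prime `q` there are a valuation subring of `ℚ̄` over `q` and a Frobenius
element at it. -/
theorem places : Spec.PlacesStatement := by
  intro q hq
  obtain ⟨A, φ, hA, hφ⟩ := Fermat.Agent.S54.exists_frobenius q hq
  exact ⟨A, hA, φ, hφ⟩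

end Fermat.Agent.Ribet.H584
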