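/-
RIBET row 38, WALL-p, I3 leaf INC-AN, piece CUSP (analytic) — helper584.

If `F` has a convergent Laurent expansion `φ` in `z = exp (2πiτ/N)` and `F · q → 0` at `i∞`
(`q = z ^ N`), then `φ = 0` or `1 - N ≤ ord φ`.
-/
import Fermat.Agent.S24.Mod.H708QInf

set_option autoImplicit false

noncomputable section

namespace Fermat.Agent.Ribet.H584

open Complex Function Filter
open UpperHalfPlane hiding I
open Fermat.Agent.S24.H708
open scoped Manifold Real Topology

variable {N : ℕ} [NeZero N]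

/-- A function with a `q_N`-expansion which tends to `0` at `i∞` has an expansion of positive
order (or `0`). -/
theorem order_pos_of_isZeroAtImInfty {G : ℍ → ℂ} {ψ : LaurentSeries ℂ} (hG : HasQExp N G ψ)
    (h0 : IsZeroAtImInfty G) : ∀ n : ℤ, n < 1 → ψ.coeff n = 0 := by
  have hhol : IsHolInf N G := ⟨hG.mdiff, hG.isMerInf.per, h0.isBoundedAtImInfty⟩
  have hψ : ψ = HahnSeries.ofPowerSeries ℤ ℂ (qExpansion (N : ℝ) G) := by
    rw [← hG.qexpFun_eq, qexpFun_of_isHolInf hhol]
  have hc0 : (qExpansion (N : ℝ) G).coeff 0 = 0 := by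
    rw [qExpansion_coeff]
    simp [h0.cuspFunction_apply_zero (hpos N)]
  intro n hn
  rw [hψ, PowerSeries.coeff_coe]
  split_ifs with h
  · rfl
  · have : n = 0 := by omega
    subst this
    simpa using hc0

/-- `q = z ^ N` in the `q_N`-expansion language. -/
theorem hasQExp_qh_one : HasQExp N (qh 1) (HahnSeries.single (N : ℤ) (1 : ℂ)) := by
  refine HasQExp.of_hasSum (mdiff_qh 1) fun τ => ?_
  have hq : qh 1 τ = qh N τ ^ (N : ℤ) := by
    rw [qh_apply, qh_apply, Function.Periodic.qParam, Function.Periodic.qParam, zpow_natCast,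
      ← Complex.exp_nat_mul]
    congr 1
    have hN : (N : ℂ) ≠ 0 := by exact_mod_cast NeZero.ne N
    push_cast
    field_simp
  have h := hasSum_single (f := fun n : ℤ => (HahnSeries.single (N : ℤ) (1 : ℂ)).coeff n *
    qh N τ ^ n) (N : ℤ) (fun n hn => by
      show (HahnSeries.single (N : ℤ) (1 : ℂ)).coeff n * qh N τ ^ n = 0
      rw [HahnSeries.coeff_single_of_ne hn, zero_mul])
  simp only [HahnSeries.coeff_single_same, one_mul] at h
  rw [hq]
  exact h

/-- **CUSP.**  If `F · q → 0` at `i∞` then the `q_N`-expansion of `F` has no terms of degree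
`≤ -N`. -/
theorem coeff_eq_zero_of_isZeroAtImInfty_mul_q {F : ℍ → ℂ} {φ : LaurentSeries ℂ}
    (hF : HasQExp N F φ) (h0 : IsZeroAtImInfty (fun τ => F τ * qh 1 τ)) :
    ∀ n : ℤ, n < 1 - N → φ.coeff n = 0 := by
  have hG : HasQExp N (F * qh 1) (φ * HahnSeries.single (N : ℤ) (1 : ℂ)) := hF.mul hasQExp_qh_one
  have h := order_pos_of_isZeroAtImInfty hG h0
  intro n hn
  have h1 := h (n + N) (by omega)
  rwa [HahnSeries.coeff_mul_single_add, mul_one] at h1

theorem order_ge_of_isZeroAtImInfty_mul_q {F : ℍ → ℂ} {φ : LaurentSeries ℂ}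
    (hF : HasQExp N F φ) (h0 : IsZeroAtImInfty (fun τ => F τ * qh 1 τ)) (hφ : φ ≠ 0) :
    1 - (N : ℤ) ≤ φ.order :=
  (HahnSeries.le_order_iff_forall hφ).mpr (coeff_eq_zero_of_isZeroAtImInfty_mul_q hF h0)

end Fermat.Agent.Ribet.H584
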