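/-
RIBET row 38, WALL-p, I3 leaf INC-AN, piece ORD (formal local computation) — helper584.

In `C((z))`, `char C = 0`: from the relations
  `U · j (j - 1728) = - h₁`,  `h₁² = h₂ (j - 1728)`,  `h₁³ = h₃ j`
and the local orders of `h₁, h₂, h₃` we get `ord (U · θ j) ≥ 1` (`θ = z d/dz`), i.e. the
differential `U dj` is regular:
* `holo_fin`  : at a finite point (`ord (j - a) = m ≥ 1`, `h₁, h₂, h₃` regular);
* `holo_cusp` : at a cusp (`ord j = -N < 0`, `ord h₁ ≥ 1 - N`).
-/
import Fermat.Agent.Ribet.H763.IncAnAlg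

set_option autoImplicit false

noncomputable section

namespace Fermat.Agent.Ribet.H584

open HahnSeries Fermat.Agent.S28 Fermat.Agent.Ribet.H763.IncAn

variable {C : Type*} [Field C]

theorem coeff_C_of_ne (c : C) {n : ℤ} (hn : n ≠ 0) : (HahnSeries.C c : LaurentSeries C).coeff n = 0 :=
  HahnSeries.coeff_single_of_ne hn

theorem order_add_C_of_pos {x : LaurentSeries C} (hx : 0 < x.order) {c : C} (hc : c ≠ 0) :
    (x + HahnSeries.C c).order = 0 := by
  have h0 : (x + HahnSeries.C c).coeff 0 ≠ 0 := by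
    rw [HahnSeries.coeff_add, HahnSeries.coeff_eq_zero_of_lt_order hx, zero_add]
    show (HahnSeries.single (0 : ℤ) c).coeff 0 ≠ 0
    rw [HahnSeries.coeff_single_same]
    exact hc
  have hne : x + HahnSeries.C c ≠ 0 := HahnSeries.ne_zero_of_coeff_ne_zero h0
  apply le_antisymm (HahnSeries.order_le_of_coeff_ne_zero h0)
  rw [HahnSeries.le_order_iff_forall hne]
  intro j hj
  rw [HahnSeries.coeff_add, HahnSeries.coeff_eq_zero_of_lt_order (hj.trans hx),
    coeff_C_of_ne c hj.ne, add_zero]

theorem order_add_C_of_neg {x : LaurentSeries C} (hx : x.order < 0) (c : C) :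
    (x + HahnSeries.C c).order = x.order := by
  have hx0 : x ≠ 0 := by
    rintro rfl
    simp at hx
  have h0 : (x + HahnSeries.C c).coeff x.order ≠ 0 := by
    rw [HahnSeries.coeff_add, coeff_C_of_ne c hx.ne, add_zero]
    exact fun h => hx0 (HahnSeries.coeff_order_eq_zero.mp h)
  have hne : x + HahnSeries.C c ≠ 0 := HahnSeries.ne_zero_of_coeff_ne_zero h0
  apply le_antisymm (HahnSeries.order_le_of_coeff_ne_zero h0)
  rw [HahnSeries.le_order_iff_forall hne]
  intro j hj
  rw [HahnSeries.coeff_add, HahnSeries.coeff_eq_zero_of_lt_order hj,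
    coeff_C_of_ne c (hj.trans hx).ne, add_zero]

theorem order_pow' (x : LaurentSeries C) (n : ℕ) : (x ^ n).order = n * x.order := by
  rcases eq_or_ne x 0 with rfl | hx
  · rcases Nat.eq_zero_or_pos n with rfl | hn
    · simp
    · rw [zero_pow hn.ne']
      simp
  induction n with
  | zero => simp
  | succ n ih =>
    rw [pow_succ, HahnSeries.order_mul (pow_ne_zero n hx) hx, ih]
    push_cast
    ring

theorem thetaL_add_C (x : LaurentSeries C) (c : C) :
    thetaL C (x + HahnSeries.C c) = thetaL C x := by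
  rw [h88_thetaL_add, h88_thetaL_C, add_zero]

variable [CharZero C]

open Classical in
/-- **ORD, finite point.** -/
theorem holo_fin (sj sU h₁ h₂ h₃ : LaurentSeries C) (a : C) (m : ℕ) (hm : 0 < m)
    (ht : (sj - HahnSeries.C a).order = (m : ℤ))
    (hU : sU * (sj * (sj - HahnSeries.C 1728)) = -h₁)
    (h12 : h₁ ^ 2 = h₂ * (sj - HahnSeries.C 1728)) (h13 : h₁ ^ 3 = h₃ * sj)
    (o1 : 0 ≤ h₁.order) (o2 : 0 ≤ h₂.order) (o3 : 0 ≤ h₃.order) :
    sU * thetaL C sj = 0 ∨ 1 ≤ (sU * thetaL C sj).order := by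
  have hm' : (0 : ℤ) < m := by exact_mod_cast hm
  set t := sj - HahnSeries.C a with htdef
  have htpos : 0 < t.order := by rw [ht]; exact hm'
  have ht0 : t ≠ 0 := by
    rintro h
    rw [h] at htpos
    simp at htpos
  have hsj : sj = t + HahnSeries.C a := by rw [htdef, sub_add_cancel]
  have hsj' : sj - HahnSeries.C 1728 = t + HahnSeries.C (a - 1728) := by
    rw [htdef, map_sub]
    ring
  -- orders of `j` and `j - 1728`
  have oj : sj.order = if a = 0 then (m : ℤ) else 0 := by
    split_ifs with ha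
    · rw [hsj, ha, map_zero, add_zero, ht]
    · rw [hsj, order_add_C_of_pos htpos ha]
  have oj' : (sj - HahnSeries.C 1728).order = if a = 1728 then (m : ℤ) else 0 := by
    split_ifs with ha
    · rw [hsj', ha, sub_self, map_zero, add_zero, ht]
    · rw [hsj', order_add_C_of_pos htpos (sub_ne_zero.mpr ha)]
  have hj0 : sj ≠ 0 := by
    rw [hsj]
    intro h
    by_cases ha : a = 0
    · rw [ha, map_zero, add_zero] at h
      exact ht0 h
    · have := order_add_C_of_pos htpos ha
      have h0 : (t + HahnSeries.C a).coeff 0 = a := by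
        rw [HahnSeries.coeff_add, HahnSeries.coeff_eq_zero_of_lt_order htpos, zero_add]
        exact HahnSeries.coeff_single_same 0 a
      rw [h, HahnSeries.coeff_zero] at h0
      exact ha h0.symm
  have hj0' : sj - HahnSeries.C 1728 ≠ 0 := by
    rw [hsj']
    intro h
    by_cases ha : a - 1728 = 0
    · rw [ha, map_zero, add_zero] at h
      exact ht0 h
    · have h0 : (t + HahnSeries.C (a - 1728)).coeff 0 = a - 1728 := by
        rw [HahnSeries.coeff_add, HahnSeries.coeff_eq_zero_of_lt_order htpos, zero_add]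
        exact HahnSeries.coeff_single_same 0 _
      rw [h, HahnSeries.coeff_zero] at h0
      exact ha h0.symm
  -- `θ j`
  have hθ : thetaL C sj = thetaL C t := by rw [hsj, thetaL_add_C]
  have ht_ne : t.order ≠ 0 := htpos.ne'
  have hθ0 : thetaL C t ≠ 0 := thetaL_ne_zero_of_order_ne_zero ht_ne
  have oθ : (thetaL C t).order = (m : ℤ) := by rw [order_thetaL ht_ne, ht]
  by_cases h10 : h₁ = 0
  · left
    rw [h10, neg_zero] at hU
    rcases mul_eq_zero.mp hU with h | h
    · rw [h, zero_mul]
    · exact absurd h (mul_ne_zero hj0 hj0')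
  right
  have hU0 : sU ≠ 0 := by
    rintro rfl
    rw [zero_mul] at hU
    exact h10 (neg_eq_zero.mp hU.symm)
  have h20 : h₂ ≠ 0 := by
    rintro rfl
    rw [zero_mul] at h12
    exact h10 (pow_eq_zero_iff (two_ne_zero) |>.mp h12)
  have h30 : h₃ ≠ 0 := by
    rintro rfl
    rw [zero_mul] at h13
    exact h10 (pow_eq_zero_iff (three_ne_zero) |>.mp h13)
  have e1 : sU.order + (sj.order + (sj - HahnSeries.C 1728).order) = h₁.order := by
    have := congrArg HahnSeries.order hU
    rwa [HahnSeries.order_mul hU0 (mul_ne_zero hj0 hj0'), HahnSeries.order_mul hj0 hj0',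
      HahnSeries.order_neg] at this
  have e2 : 2 * h₁.order = h₂.order + (sj - HahnSeries.C 1728).order := by
    have := congrArg HahnSeries.order h12
    rwa [order_pow', HahnSeries.order_mul h20 hj0'] at this
  have e3 : 3 * h₁.order = h₃.order + sj.order := by
    have := congrArg HahnSeries.order h13
    rwa [order_pow', HahnSeries.order_mul h30 hj0] at this
  rw [hθ, HahnSeries.order_mul hU0 hθ0, oθ]
  rw [oj] at e1 e3
  rw [oj'] at e1 e2
  have h1728 : (1728 : C) ≠ 0 := by norm_num
  by_cases ha0 : a = 0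
  · have ha1 : a ≠ 1728 := by rw [ha0]; exact h1728.symm
    rw [if_pos ha0] at e1 e3
    rw [if_neg ha1] at e1 e2
    omega
  · rw [if_neg ha0] at e1 e3
    by_cases ha1 : a = 1728
    · rw [if_pos ha1] at e1 e2
      omega
    · rw [if_neg ha1] at e1 e2
      omega

/-- **ORD, cusp.** -/
theorem holo_cusp (sj sU h₁ : LaurentSeries C) (N : ℕ) (hN : 0 < N)
    (hj : sj.order = -(N : ℤ))
    (hU : sU * (sj * (sj - HahnSeries.C 1728)) = -h₁)
    (o1 : h₁ = 0 ∨ 1 - (N : ℤ) ≤ h₁.order) :
    sU * thetaL C sj = 0 ∨ 1 ≤ (sU * thetaL C sj).order := by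
  have hN' : (0 : ℤ) < N := by exact_mod_cast hN
  have hjneg : sj.order < 0 := by rw [hj]; omega
  have hj0 : sj ≠ 0 := by
    rintro rfl
    simp at hjneg
  have oj' : (sj - HahnSeries.C 1728).order = -(N : ℤ) := by
    have : sj - HahnSeries.C 1728 = sj + HahnSeries.C (-1728) := by
      rw [map_neg]
      ring
    rw [this, order_add_C_of_neg hjneg, hj]
  have hj0' : sj - HahnSeries.C 1728 ≠ 0 := by
    intro h
    rw [h] at oj'
    simp at oj'
    omega
  have hj_ne : sj.order ≠ 0 := hjneg.ne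
  have hθ0 : thetaL C sj ≠ 0 := thetaL_ne_zero_of_order_ne_zero hj_ne
  have oθ : (thetaL C sj).order = -(N : ℤ) := by rw [order_thetaL hj_ne, hj]
  by_cases h10 : h₁ = 0
  · left
    rw [h10, neg_zero] at hU
    rcases mul_eq_zero.mp hU with h | h
    · rw [h, zero_mul]
    · exact absurd h (mul_ne_zero hj0 hj0')
  right
  have o1' : 1 - (N : ℤ) ≤ h₁.order := o1.resolve_left h10
  have hU0 : sU ≠ 0 := by
    rintro rfl
    rw [zero_mul] at hU
    exact h10 (neg_eq_zero.mp hU.symm)
  have e1 : sU.order + (sj.order + (sj - HahnSeries.C 1728).order) = h₁.order := by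
    have := congrArg HahnSeries.order hU
    rwa [HahnSeries.order_mul hU0 (mul_ne_zero hj0 hj0'), HahnSeries.order_mul hj0 hj0',
      HahnSeries.order_neg] at this
  rw [HahnSeries.order_mul hU0 hθ0, oθ]
  rw [hj, oj'] at e1
  omega

end Fermat.Agent.Ribet.H584
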