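/-
RIBET row 38, WALL-p, I3 leaf INC-AN (analytic half), piece DERIV — helper584.

`q`-expansion of the normalised derivative `D = (2πi)⁻¹ d/dτ`:
if `f` has Laurent `q`-expansion `φ` at `i∞` then `D f` has `q`-expansion `θ φ`, `θ = q d/dq`.
Mathlib + `S24.H708` only.
-/
import Fermat.Agent.S24.Mod.H708QInf
import Mathlib.NumberTheory.ModularForms.Derivative
import Mathlib.Analysis.Complex.LocallyUniformLimit

set_option autoImplicit false

noncomputable section

namespace Fermat.Agent.Ribet.H584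

open Complex Function Filter Derivative
open UpperHalfPlane hiding I
open Fermat.Agent.S24.H708
open scoped Manifold Real Topology

/-- `θ = q d/dq` on Laurent series. -/
def thetaL {k : Type*} [Field k] (φ : LaurentSeries k) : LaurentSeries k :=
  HahnSeries.ofSuppBddBelow (fun n : ℤ => (n : k) * φ.coeff n)
    ⟨φ.order, fun m hm => by
      by_contra hlt
      rw [not_le] at hlt
      exact hm (by
        show (m : k) * φ.coeff m = 0
        rw [HahnSeries.coeff_eq_zero_of_lt_order hlt, mul_zero])⟩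

@[simp]
theorem thetaL_coeff {k : Type*} [Field k] (φ : LaurentSeries k) (n : ℤ) :
    (thetaL φ).coeff n = (n : k) * φ.coeff n := rfl

/-- The `n`-th term of the `q`-expansion as an entire function. -/
def qTerm (a : ℂ) (n : ℤ) (w : ℂ) : ℂ := a * Complex.exp (2 * π * I * n * w)

theorem qh_one_zpow (w : ℍ) (n : ℤ) :
    qh 1 w ^ n = Complex.exp (2 * π * I * n * (w : ℂ)) := by
  rw [qh_apply, Function.Periodic.qParam, ← Complex.exp_int_mul]
  congr 1
  push_cast
  ring

theorem qTerm_eq (a : ℂ) (n : ℤ) (w : ℍ) : qTerm a n (w : ℂ) = a * qh 1 w ^ n := by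
  rw [qTerm, qh_one_zpow]

theorem hasDerivAt_qTerm (a : ℂ) (n : ℤ) (w : ℂ) :
    HasDerivAt (qTerm a n) (2 * π * I * n * qTerm a n w) w := by
  have h1 : HasDerivAt (fun w : ℂ => 2 * π * I * n * w) (2 * π * I * n) w := by
    simpa using (hasDerivAt_id w).const_mul (2 * π * I * n)
  have h2 := (h1.cexp).const_mul a
  have e : 2 * π * I * n * qTerm a n w =
      a * (Complex.exp (2 * π * I * n * w) * (2 * π * I * n)) := by
    unfold qTerm
    ring
  rw [e]
  exact h2

theorem norm_qTerm (a : ℂ) (n : ℤ) (w : ℂ) :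
    ‖qTerm a n w‖ = ‖a‖ * Real.exp (-(2 * π * n * w.im)) := by
  rw [qTerm, norm_mul, Complex.norm_exp]
  congr 2
  simp [Complex.mul_re, Complex.mul_im]

theorem norm_qTerm_le (a : ℂ) (n : ℤ) {c C : ℝ} (w : ℂ) (h1 : c ≤ w.im) (h2 : w.im ≤ C) :
    ‖qTerm a n w‖ ≤ ‖qTerm a n (c * I)‖ + ‖qTerm a n (C * I)‖ := by
  rw [norm_qTerm, norm_qTerm, norm_qTerm]
  have hpi := Real.pi_pos
  simp only [Complex.mul_im, Complex.ofReal_re, Complex.I_im, mul_one, Complex.ofReal_im,
    Complex.I_re, mul_zero, add_zero]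
  rcases le_or_gt 0 n with hn | hn
  · have hn' : (0 : ℝ) ≤ n := by exact_mod_cast hn
    have : Real.exp (-(2 * π * n * w.im)) ≤ Real.exp (-(2 * π * n * c)) := by
      apply Real.exp_le_exp.mpr
      have : 2 * π * n * c ≤ 2 * π * n * w.im :=
        mul_le_mul_of_nonneg_left h1 (by positivity)
      linarith
    have h3 : ‖a‖ * Real.exp (-(2 * π * n * w.im)) ≤ ‖a‖ * Real.exp (-(2 * π * n * c)) :=
      mul_le_mul_of_nonneg_left this (norm_nonneg _)
    have h4 : 0 ≤ ‖a‖ * Real.exp (-(2 * π * n * C)) := by positivity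
    linarith
  · have hn' : (n : ℝ) ≤ 0 := by exact_mod_cast hn.le
    have : Real.exp (-(2 * π * n * w.im)) ≤ Real.exp (-(2 * π * n * C)) := by
      apply Real.exp_le_exp.mpr
      have : 2 * π * (-n) * w.im ≤ 2 * π * (-n) * C :=
        mul_le_mul_of_nonneg_left h2 (by
          have : (0 : ℝ) ≤ -n := by linarith
          positivity)
      linarith
    have h3 : ‖a‖ * Real.exp (-(2 * π * n * w.im)) ≤ ‖a‖ * Real.exp (-(2 * π * n * C)) :=
      mul_le_mul_of_nonneg_left this (norm_nonneg _)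
    have h4 : 0 ≤ ‖a‖ * Real.exp (-(2 * π * n * c)) := by positivity
    linarith

/-- **DERIV.**  The `q`-expansion of `D f` is `θ` of the `q`-expansion of `f`. -/
theorem hasQExp_D {f : ℍ → ℂ} {φ : LaurentSeries ℂ} (hf : HasQExp 1 f φ) :
    HasQExp 1 (D f) (thetaL φ) := by
  refine HasQExp.of_hasSum (normalizedDerivOfComplex_mdifferentiable hf.mdiff) fun τ => ?_
  -- the strip around `τ`
  set c : ℝ := τ.im / 2 with hc
  set C : ℝ := 2 * τ.im with hC
  have hτ := τ.im_pos
  have hc0 : 0 < c := by rw [hc]; positivity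
  have hC0 : 0 < C := by rw [hC]; positivity
  set U : Set ℂ := {w | c < w.im ∧ w.im < C} with hU
  have hUo : IsOpen U :=
    (isOpen_lt continuous_const Complex.continuous_im).inter
      (isOpen_lt Complex.continuous_im continuous_const)
  have hτU : (τ : ℂ) ∈ U := by
    refine ⟨?_, ?_⟩
    · show τ.im / 2 < τ.im
      linarith
    · show τ.im < 2 * τ.im
      linarith
  have hpos : ∀ w ∈ U, 0 < w.im := fun w hw => hc0.trans hw.1
  -- the sum on the strip
  have hsum : ∀ w : ℍ, HasSum (fun n : ℤ => qTerm (φ.coeff n) n (w : ℂ)) (f w) := by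
    intro w
    have := hf.hasSum w
    simpa only [qTerm_eq] using this
  have hcI : 0 < (c * I : ℂ).im := by simpa using hc0
  have hCI : 0 < (C * I : ℂ).im := by simpa using hC0
  have hu : Summable (fun n : ℤ => ‖qTerm (φ.coeff n) n (c * I)‖ +
      ‖qTerm (φ.coeff n) n (C * I)‖) :=
    ((hsum ⟨c * I, hcI⟩).summable.norm).add ((hsum ⟨C * I, hCI⟩).summable.norm)
  have hder := Complex.hasSum_deriv_of_summable_norm (F := fun n : ℤ => qTerm (φ.coeff n) n)
    (U := U) (z := (τ : ℂ)) hu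
    (fun n w _ => (hasDerivAt_qTerm _ n w).differentiableAt.differentiableWithinAt) hUo
    (fun n w hw => norm_qTerm_le _ n w hw.1.le hw.2.le) hτU
  have heq : (fun w : ℂ => ∑' n : ℤ, qTerm (φ.coeff n) n w) =ᶠ[𝓝 (τ : ℂ)] (f ∘ ofComplex) := by
    filter_upwards [hUo.mem_nhds hτU] with w hw
    have := (hsum ⟨w, hpos w hw⟩).tsum_eq
    rw [Function.comp_apply, ofComplex_apply_of_im_pos (hpos w hw)]
    exact this
  rw [heq.deriv_eq] at hder
  have h2 : HasSum (fun n : ℤ => (2 * π * I)⁻¹ * deriv (qTerm (φ.coeff n) n) (τ : ℂ))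
      ((2 * π * I)⁻¹ * deriv (f ∘ ofComplex) (τ : ℂ)) := hder.mul_left _
  have h2pi : (2 * π * I : ℂ) ≠ 0 := by
    simp [Real.pi_ne_zero]
  have hD : D f τ = (2 * π * I)⁻¹ * deriv (f ∘ ofComplex) (τ : ℂ) := rfl
  rw [hD]
  convert h2 using 1
  funext n
  rw [(hasDerivAt_qTerm _ n (τ : ℂ)).deriv, thetaL_coeff, qTerm_eq]
  field_simp

end Fermat.Agent.Ribet.H584
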