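/-
RIBET row 38, WALL-p, I3 leaf INC-AN (analytic half), piece GOOD — helper584.

For a cusp form `f` of weight 2 on `Γ₀(M)` the weight-0 functions
  `H₁ = f·E₄·E₆/Δ`,  `H₂ = f²·E₄²/Δ`,  `H₃ = f³·E₆³/Δ²`
belong to `S24.H648.goodRing M` (holomorphic, `Γ₀(M)`-invariant, all `SL₂(ℤ)`-translates of at
most exponential growth), and `H₁ ∘ g · q → 0` at `i∞` for every `g ∈ SL₂(ℤ)`
(pole order `< 1` in `q` at every cusp).
-/
import Fermat.Agent.S24.Deg.H648Conj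
import Fermat.Agent.S24.JFun.Basic
import Fermat.Agent.S24.Mod.H708QInf
import Fermat.Agent.S28.H589.UnitAnalytic

set_option autoImplicit false

noncomputable section

open UpperHalfPlane ModularForm EisensteinSeries CongruenceSubgroup Filter
open scoped MatrixGroups Manifold Real Modular

namespace Fermat.Agent.Ribet.H584

open Fermat.Agent.S24 Fermat.Agent.S24.H648 Fermat.Agent.S24.H708

local notation "Δ" => ModularForm.discriminant

/-- `A` transforms with weight `k` under `Γ₀(M)`. -/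
def WtInv (M : ℕ) (k : ℕ) (A : ℍ → ℂ) : Prop :=
  ∀ γ ∈ Gamma0 M, ∀ τ : ℍ, A (γ • τ) = denom γ τ ^ k * A τ

/-- All `SL₂(ℤ)`-slashes of weight `k` of `A` are bounded on `im τ ≥ 1`. -/
def SlashBdd (k : ℕ) (A : ℍ → ℂ) : Prop :=
  ∀ g : SL(2, ℤ), ∃ C : ℝ, ∀ τ : ℍ, 1 ≤ τ.im → ‖A (g • τ)‖ ≤ C * ‖denom g τ‖ ^ k

theorem WtInv.mul {M k l : ℕ} {A B : ℍ → ℂ} (hA : WtInv M k A) (hB : WtInv M l B) :
    WtInv M (k + l) (A * B) := by
  intro γ hγ τ
  rw [Pi.mul_apply, Pi.mul_apply, hA γ hγ τ, hB γ hγ τ, pow_add]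
  ring

theorem WtInv.pow {M k : ℕ} {A : ℍ → ℂ} (hA : WtInv M k A) (n : ℕ) :
    WtInv M (k * n) (A ^ n) := by
  intro γ hγ τ
  rw [Pi.pow_apply, Pi.pow_apply, hA γ hγ τ, mul_pow, pow_mul]

theorem SlashBdd.mul {k l : ℕ} {A B : ℍ → ℂ} (hA : SlashBdd k A) (hB : SlashBdd l B) :
    SlashBdd (k + l) (A * B) := by
  intro g
  obtain ⟨C, hC⟩ := hA g
  obtain ⟨C', hC'⟩ := hB g
  refine ⟨C * C', fun τ hτ => ?_⟩
  rw [Pi.mul_apply, norm_mul, pow_add]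
  have h1 := hC τ hτ
  have h2 := hC' τ hτ
  calc ‖A (g • τ)‖ * ‖B (g • τ)‖ ≤ (C * ‖denom g τ‖ ^ k) * (C' * ‖denom g τ‖ ^ l) :=
        mul_le_mul h1 h2 (norm_nonneg _) ((norm_nonneg _).trans h1)
    _ = _ := by ring

theorem SlashBdd.pow {k : ℕ} {A : ℍ → ℂ} (hA : SlashBdd k A) (n : ℕ) :
    SlashBdd (k * n) (A ^ n) := by
  intro g
  obtain ⟨C, hC⟩ := hA g
  refine ⟨C ^ n, fun τ hτ => ?_⟩
  rw [Pi.pow_apply, norm_pow, pow_mul, ← mul_pow]
  exact pow_le_pow_left₀ (norm_nonneg _) (hC τ hτ) n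

/-- Level-one modular forms are slash-bounded. -/
theorem slashBdd_levelOne {k : ℕ} (F : ModularForm 𝒮ℒ k) : SlashBdd k F := by
  intro g
  obtain ⟨C, hC⟩ := ModularFormClass.exists_bound (k := k) (Γ := 𝒮ℒ) (Int.natCast_nonneg k) F
  have hC0 : 0 ≤ C := by
    have h := hC UpperHalfPlane.I
    have h1 : (0 : ℝ) < max 1 (1 / UpperHalfPlane.I.im ^ (k : ℤ)) :=
      lt_max_of_lt_left one_pos
    by_contra hneg
    rw [not_le] at hneg
    have : C * max 1 (1 / UpperHalfPlane.I.im ^ (k : ℤ)) < 0 := mul_neg_of_neg_of_pos hneg h1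
    exact absurd ((norm_nonneg _).trans h) (not_le.mpr this)
  refine ⟨C, fun τ hτ => ?_⟩
  have hsl : F (g • τ) = denom g τ ^ (k : ℤ) * F τ :=
    SlashInvariantForm.slash_action_eqn'' F
      (show ((g : SL(2, ℤ)) : GL (Fin 2) ℝ) ∈ 𝒮ℒ from ⟨g, rfl⟩) τ
  rw [hsl, norm_mul, norm_zpow, zpow_natCast, mul_comm]
  have h := hC τ
  have hmax : max 1 (1 / τ.im ^ (k : ℤ)) = 1 := by
    apply max_eq_left
    rw [zpow_natCast, div_le_one (by positivity)]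
    exact one_le_pow₀ hτ
  rw [hmax, mul_one] at h
  exact mul_le_mul_of_nonneg_right h (by positivity)

theorem wtInv_levelOne (M : ℕ) {k : ℕ} (F : ModularForm 𝒮ℒ k) : WtInv M k F := by
  intro γ _ τ
  have hsl : F (γ • τ) = denom γ τ ^ (k : ℤ) * F τ :=
    SlashInvariantForm.slash_action_eqn'' F
      (show ((γ : SL(2, ℤ)) : GL (Fin 2) ℝ) ∈ 𝒮ℒ from ⟨γ, rfl⟩) τ
  rw [hsl, zpow_natCast]

variable {M : ℕ} [NeZero M]

omit [NeZero M] in
theorem wtInv_cusp (f : CuspForm (Gamma0 M) 2) : WtInv M 2 f := by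
  intro γ hγ τ
  have h := SlashInvariantForm.slash_action_eqn_SL'' f hγ τ
  rw [h]
  norm_cast

/-- Cusp forms of weight 2 are slash-bounded (Hecke's bound `‖f τ‖ ≤ C / im τ`). -/
theorem slashBdd_cusp (f : CuspForm (Gamma0 M) 2) : SlashBdd 2 f := by
  intro g
  obtain ⟨C, hC⟩ := CuspFormClass.exists_bound (k := 2) f
  have hC' : ∀ τ : ℍ, ‖f τ‖ * τ.im ≤ C := by
    intro τ
    have h := hC τ
    have hpow : τ.im ^ (((2 : ℤ) : ℝ) / 2) = τ.im := by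
      have : (((2 : ℤ) : ℝ) / 2) = 1 := by norm_num
      rw [this, Real.rpow_one]
    rw [hpow] at h
    rwa [le_div_iff₀ τ.im_pos] at h
  have hC0 : 0 ≤ C := le_trans (by positivity) (hC' UpperHalfPlane.I)
  refine ⟨C, fun τ hτ => ?_⟩
  have h := hC' (g • τ)
  rw [ModularGroup.im_smul_eq_div_normSq, Complex.normSq_eq_norm_sq] at h
  have hd : denom g τ ≠ 0 := denom_ne_zero _ _
  have hn : 0 < ‖denom g τ‖ ^ 2 := by positivity
  have h1 : ‖f (g • τ)‖ * τ.im ≤ C * ‖denom g τ‖ ^ 2 := by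
    rw [← div_le_iff₀ hn]
    calc ‖f (g • τ)‖ * τ.im / ‖denom g τ‖ ^ 2 = ‖f (g • τ)‖ * (τ.im / ‖denom g τ‖ ^ 2) := by
          ring
      _ ≤ C := h
  calc ‖f (g • τ)‖ = ‖f (g • τ)‖ * 1 := (mul_one _).symm
    _ ≤ ‖f (g • τ)‖ * τ.im := mul_le_mul_of_nonneg_left hτ (norm_nonneg _)
    _ ≤ _ := h1


omit [NeZero M] in
theorem mdiff_discriminant_pow (k : ℕ) : MDiff (fun τ : ℍ => Δ τ ^ k) :=
  CuspForm.discriminant.holo'.pow k

omit [NeZero M] in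
/-- **GOOD, general form**: a holomorphic function of weight `12 k` for `Γ₀(M)`, slash-bounded,
divided by `Δ ^ k`, is a good function. -/
theorem mem_goodRing_div {A : ℍ → ℂ} (k : ℕ) (hA : MDiff A) (hinv : WtInv M (12 * k) A)
    (hbd : SlashBdd (12 * k) A) : (fun τ => A τ / Δ τ ^ k) ∈ goodRing M := by
  have hΔk : ∀ (g : SL(2, ℤ)) (τ : ℍ), Δ (g • τ) ^ k = denom g τ ^ (12 * k) * Δ τ ^ k := by
    intro g τ
    rw [JFun.discriminant_smul, mul_pow, pow_mul]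
    norm_cast
  refine ⟨hA.div (mdiff_discriminant_pow k) fun τ => pow_ne_zero k (discriminant_ne_zero τ),
    fun γ hγ τ => ?_, fun g => ?_⟩
  · show A (γ • τ) / Δ (γ • τ) ^ k = A τ / Δ τ ^ k
    rw [hinv γ hγ τ, hΔk]
    have hd : denom γ τ ^ (12 * k) ≠ 0 := pow_ne_zero _ (denom_ne_zero _ _)
    rw [mul_div_mul_left _ _ hd]
  · obtain ⟨C, hC⟩ := hbd g
    obtain ⟨C₂, hC₂⟩ := Fermat.Agent.S28.H589.exists_inv_discriminant_bound
    refine ⟨C * C₂ ^ k, k, fun τ hτ => ?_⟩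
    show ‖A (g • τ) / Δ (g • τ) ^ k‖ ≤ _
    have hd : (0 : ℝ) < ‖denom g τ‖ ^ (12 * k) :=
      pow_pos (norm_pos_iff.mpr (denom_ne_zero _ _)) _
    have hΔ0 : (0 : ℝ) < ‖Δ τ‖ := norm_pos_iff.mpr (discriminant_ne_zero τ)
    have h1 := hC τ hτ
    have h2 := hC₂ τ hτ
    have hC0 : 0 ≤ C := by
      by_contra hneg
      rw [not_le] at hneg
      exact absurd ((norm_nonneg _).trans h1) (not_le.mpr (mul_neg_of_neg_of_pos hneg hd))
    rw [norm_div, hΔk, norm_mul, norm_pow, norm_pow]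
    have h3 : ‖A (g • τ)‖ / (‖denom g τ‖ ^ (12 * k) * ‖Δ τ‖ ^ k) ≤ C * (‖Δ τ‖⁻¹) ^ k := by
      rw [div_le_iff₀ (by positivity)]
      calc ‖A (g • τ)‖ ≤ C * ‖denom g τ‖ ^ (12 * k) := h1
        _ = C * (‖Δ τ‖⁻¹) ^ k * (‖denom g τ‖ ^ (12 * k) * ‖Δ τ‖ ^ k) := by
            rw [inv_pow]
            field_simp
    refine h3.trans ?_
    rw [norm_inv] at h2
    have h4 : (‖Δ τ‖⁻¹) ^ k ≤ (C₂ * Real.exp (2 * π * τ.im)) ^ k :=
      pow_le_pow_left₀ (by positivity) h2 k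
    calc C * (‖Δ τ‖⁻¹) ^ k ≤ C * (C₂ * Real.exp (2 * π * τ.im)) ^ k :=
          mul_le_mul_of_nonneg_left h4 hC0
      _ = C * C₂ ^ k * Real.exp (2 * π * k * τ.im) := by
          rw [mul_pow, ← Real.exp_nat_mul]
          ring_nf

/-! ### The three functions attached to a cusp form of weight 2 -/

/-- `H₁ = f E₄ E₆ / Δ`. -/
def H1 (f : ℍ → ℂ) (τ : ℍ) : ℂ := f τ * E₄ τ * E₆ τ / Δ τ

/-- `H₂ = f² E₄² / Δ`. -/
def H2 (f : ℍ → ℂ) (τ : ℍ) : ℂ := f τ ^ 2 * E₄ τ ^ 2 / Δ τ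

/-- `H₃ = f³ E₆³ / Δ²`. -/
def H3 (f : ℍ → ℂ) (τ : ℍ) : ℂ := f τ ^ 3 * E₆ τ ^ 3 / Δ τ ^ 2

theorem H1_mem_goodRing (f : CuspForm (Gamma0 M) 2) : H1 f ∈ goodRing M := by
  have h := mem_goodRing_div (M := M) (A := (f : ℍ → ℂ) * E₄ * E₆) 1
    ((CuspFormClass.holo f).mul (ModularFormClass.holo E₄) |>.mul (ModularFormClass.holo E₆))
    (((wtInv_cusp f).mul (wtInv_levelOne M E₄)).mul (wtInv_levelOne M E₆))
    (((slashBdd_cusp f).mul (slashBdd_levelOne E₄)).mul (slashBdd_levelOne E₆))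
  convert h using 1
  funext τ
  simp [H1]

theorem H2_mem_goodRing (f : CuspForm (Gamma0 M) 2) : H2 f ∈ goodRing M := by
  have h := mem_goodRing_div (M := M) (A := (f : ℍ → ℂ) ^ 2 * (E₄ : ℍ → ℂ) ^ 2) 1
    (((CuspFormClass.holo f).pow 2).mul ((ModularFormClass.holo E₄).pow 2))
    (((wtInv_cusp f).pow 2).mul ((wtInv_levelOne M E₄).pow 2))
    (((slashBdd_cusp f).pow 2).mul ((slashBdd_levelOne E₄).pow 2))
  convert h using 1
  funext τ
  simp [H2]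

theorem H3_mem_goodRing (f : CuspForm (Gamma0 M) 2) : H3 f ∈ goodRing M := by
  have h := mem_goodRing_div (M := M) (A := (f : ℍ → ℂ) ^ 3 * (E₆ : ℍ → ℂ) ^ 3) 2
    (((CuspFormClass.holo f).pow 3).mul ((ModularFormClass.holo E₆).pow 3))
    (((wtInv_cusp f).pow 3).mul ((wtInv_levelOne M E₆).pow 3))
    (((slashBdd_cusp f).pow 3).mul ((slashBdd_levelOne E₆).pow 3))
  convert h using 1
  funext τ
  simp [H3]

/-! ### Relations -/

omit [NeZero M] in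
theorem H1_sq (f : ℍ → ℂ) (τ : ℍ) : H1 f τ ^ 2 = H2 f τ * (JFun.jFun τ - 1728) := by
  rw [JFun.jFun_sub_1728, H1, H2]
  have := discriminant_ne_zero τ
  field_simp

omit [NeZero M] in
theorem H1_cube (f : ℍ → ℂ) (τ : ℍ) : H1 f τ ^ 3 = H3 f τ * JFun.jFun τ := by
  rw [JFun.jFun_def, H1, H3]
  have := discriminant_ne_zero τ
  field_simp


/-! ### Decay at the cusps -/

omit [NeZero M] in
/-- `q / Δ` is bounded at `i∞`. -/
theorem isBoundedAtImInfty_q_div_discriminant :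
    IsBoundedAtImInfty (fun τ : ℍ => qh 1 τ / Δ τ) := by
  obtain ⟨C, hC⟩ := Fermat.Agent.S28.H589.exists_inv_discriminant_bound
  rw [UpperHalfPlane.isBoundedAtImInfty_iff]
  refine ⟨C, 1, fun τ hτ => ?_⟩
  have h := hC τ hτ
  have hq : ‖qh 1 τ‖ = Real.exp (-(2 * π * τ.im)) := by
    rw [qh_apply, Function.Periodic.norm_qParam]
    congr 1
    simp
  rw [div_eq_mul_inv, norm_mul, hq]
  calc Real.exp (-(2 * π * τ.im)) * ‖(Δ τ)⁻¹‖
      ≤ Real.exp (-(2 * π * τ.im)) * (C * Real.exp (2 * π * τ.im)) :=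
        mul_le_mul_of_nonneg_left h (Real.exp_pos _).le
    _ = C := by
        rw [mul_comm C, ← mul_assoc, ← Real.exp_add, neg_add_cancel, Real.exp_zero, one_mul]

omit [NeZero M] in
theorem H1_smul_mul_q (f : ℍ → ℂ) (g : SL(2, ℤ)) (τ : ℍ) :
    H1 f (g • τ) * qh 1 τ = (f ∣[(2 : ℤ)] g) τ * (E₄ τ * E₆ τ * (qh 1 τ / Δ τ)) := by
  rw [H1, ModularForm.SL_slash_apply, JFun.E₄_smul, JFun.E₆_smul, JFun.discriminant_smul]
  have hd : denom g τ ≠ 0 := denom_ne_zero _ _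
  have hΔ := discriminant_ne_zero τ
  have e4 : denom g τ ^ (4 : ℤ) = denom g τ ^ 4 := by norm_cast
  have e6 : denom g τ ^ (6 : ℤ) = denom g τ ^ 6 := by norm_cast
  have e12 : denom g τ ^ (12 : ℤ) = denom g τ ^ 12 := by norm_cast
  have e2 : denom g τ ^ (-(2 : ℤ)) = (denom g τ ^ 2)⁻¹ := by
    rw [zpow_neg]
    norm_cast
  rw [e4, e6, e12, e2]
  field_simp

/-- **Cusp decay**: `H₁ ∘ g` has pole order `< 1` in `q` at `i∞`, for every `g ∈ SL₂(ℤ)`. -/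
theorem isZeroAtImInfty_H1_smul_mul_q (f : CuspForm (Gamma0 M) 2) (g : SL(2, ℤ)) :
    IsZeroAtImInfty (fun τ => H1 f (g • τ) * qh 1 τ) := by
  have h0 : IsZeroAtImInfty ((f : ℍ → ℂ) ∣[(2 : ℤ)] g) := CuspFormClass.zero_at_infty_slash f g
  have h4 : IsBoundedAtImInfty (E₄ : ℍ → ℂ) := ModularFormClass.bdd_at_infty E₄
  have h6 : IsBoundedAtImInfty (E₆ : ℍ → ℂ) := ModularFormClass.bdd_at_infty E₆
  have hb : IsBoundedAtImInfty
      ((E₄ : ℍ → ℂ) * (E₆ : ℍ → ℂ) * (fun τ : ℍ => qh 1 τ / Δ τ)) :=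
    (h4.mul h6).mul isBoundedAtImInfty_q_div_discriminant
  have := Filter.ZeroAtFilter.mul_boundedAtFilter h0 hb
  refine this.congr ?_
  exact fun τ => (H1_smul_mul_q f g τ).symm

end Fermat.Agent.Ribet.H584
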