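/-
RIBET row 38, WALL-p, I3 leaf INC-AN (analytic half), piece QEXP — helper584.

For a cusp form `f` of weight 2 on `Γ₀(M)` with `q`-expansion `G = ∑ cₙ qⁿ`, `cₙ ∈ ℤ`:
the good functions `H₁ = f E₄ E₆/Δ`, `H₂ = f² E₄²/Δ`, `H₃ = f³ E₆³/Δ²` are realised by elements
`h₁, h₂, h₃` of the function field `FF M = ℚ̄(X₀(M))`, with
  `h₁ · θ(j) = - G · j · (j - 1728)`,  `h₁² = h₂ (j - 1728)`,  `h₁³ = h₃ j`.
Hence `u₀ := G / θ(j) = - h₁ / (j (j - 1728)) ∈ FF M` : `G dq/q = u₀ dj`.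
-/
import Fermat.Agent.Ribet.H584.IncAnDeriv
import Fermat.Agent.Ribet.H584.IncAnGood
import Fermat.Agent.S24.Deg.H457_Bridge
import Fermat.Agent.S29.H882.MeroPrim
import Fermat.Agent.S29.H882.Inter
import Fermat.Agent.S29.M4b.Defs
import Fermat.Agent.S20.L1.Ramanujan
import Fermat.Prelude.Thm_CongruenceSubgroup_one_mem_strictPeriods_Gamma0

set_option autoImplicit false
set_option linter.unusedSectionVars false

noncomputable section

open UpperHalfPlane ModularForm EisensteinSeries CongruenceSubgroup Filter ModularCurve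
  ModularFormClass Derivative
open scoped MatrixGroups Manifold Real Modular

namespace Fermat.Agent.Ribet.H584

open Fermat.Agent.S24 Fermat.Agent.S24.H648 Fermat.Agent.S24.H708 Fermat.Agent.S24.Deg457
open Fermat.Agent.S29 Fermat.Agent.S29.H882 Fermat.Agent.S29.M4b

local notation "Δ" => ModularForm.discriminant

variable {M : ℕ} [NeZero M]

/-! ### `q`-expansions over `ℂ` -/

/-- The `q`-expansion of a cusp form, in the `HasQExp` language. -/
theorem hasQExp_cusp (f : CuspForm (Gamma0 M) 2) :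
    HasQExp 1 f (HahnSeries.ofPowerSeries ℤ ℂ (qExpansion 1 f)) := by
  have hper : Function.Periodic ((f : ℍ → ℂ) ∘ ofComplex) ((1 : ℕ) : ℝ) := by
    have := SlashInvariantFormClass.periodic_comp_ofComplex f
      (CongruenceSubgroup.one_mem_strictPeriods_Gamma0 M)
    simpa using this
  have : Fact (IsCusp OnePoint.infty
      (Subgroup.map (Matrix.SpecialLinearGroup.mapGL ℝ) (Gamma0 M))) :=
    ⟨Subgroup.isCusp_of_mem_strictPeriods one_pos
      (CongruenceSubgroup.one_mem_strictPeriods_Gamma0 M)⟩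
  have hhol : IsHolInf 1 (f : ℍ → ℂ) :=
    ⟨CuspFormClass.holo f, hper, ModularFormClass.bdd_at_infty f⟩
  refine ⟨IsMerInf.of_isHolInf hhol, ?_⟩
  rw [qexpFun_of_isHolInf hhol]
  simp

theorem jFun_eq_L1 : JFun.jFun = Fermat.Agent.S20.L1.jFun := rfl

/-- `q`-expansion of `D j`. -/
theorem hasQExp_D_jFun : HasQExp 1 (D JFun.jFun) (thetaL (JK ℂ)) :=
  hasQExp_D hasQExp_jFun

omit [NeZero M] in
theorem H1_mul_D_jFun (f : ℍ → ℂ) (τ : ℍ) :
    H1 f τ * D JFun.jFun τ = -(f τ * JFun.jFun τ * (JFun.jFun τ - 1728)) := by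
  rw [jFun_eq_L1, Fermat.Agent.S20.L1.D_jFun, ← jFun_eq_L1, JFun.jFun_sub_1728, JFun.jFun_def, H1]
  have := discriminant_ne_zero τ
  field_simp

omit [NeZero M] in
theorem thetaL_JK_ne_zero (K : Type*) [Field K] [Algebra ℚ K] : thetaL (JK K) ≠ 0 := by
  intro h
  have h1 := congrArg (fun x : LaurentSeries K => x.coeff (-1)) h
  simp only [thetaL_coeff, HahnSeries.coeff_zero, JK_eq, coeff_jqModC_neg_one] at h1
  simp at h1


/-! ### The `q`-series -/

section Series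

variable (K : Type*) [Field K] [Algebra ℚ K]

/-- `G = ∑ cₙ qⁿ` over a field `K`. -/
def Gser (c : ℕ → ℤ) : LaurentSeries K :=
  HahnSeries.ofPowerSeries ℤ K (PowerSeries.mk fun n => (c n : K))

/-- The candidate `h₁ = - G j (j - 1728) / θ j`. -/
def h1ser (c : ℕ → ℤ) : LaurentSeries K :=
  -(Gser K c * JK K * (JK K - 1728)) / thetaL (JK K)

/-- The candidate `h₂ = h₁² / (j - 1728)`. -/
def h2ser (c : ℕ → ℤ) : LaurentSeries K := h1ser K c ^ 2 / (JK K - 1728)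

/-- The candidate `h₃ = h₁³ / j`. -/
def h3ser (c : ℕ → ℤ) : LaurentSeries K := h1ser K c ^ 3 / JK K

/-- The candidate `u₀ = G / θ j`. -/
def u0ser (c : ℕ → ℤ) : LaurentSeries K := Gser K c / thetaL (JK K)

theorem JK_ne_zero : JK K ≠ 0 := by
  intro h
  have h1 := congrArg (fun x : LaurentSeries K => x.coeff (-1)) h
  simp only [HahnSeries.coeff_zero, JK_eq, coeff_jqModC_neg_one] at h1
  exact one_ne_zero h1

theorem coeff_ofNat_neg_one (n : ℕ) [n.AtLeastTwo] :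
    (OfNat.ofNat n : LaurentSeries K).coeff (-1) = 0 := by
  have : (OfNat.ofNat n : LaurentSeries K) = HahnSeries.C (OfNat.ofNat n : K) := by
    rw [map_ofNat]
  rw [this]
  show (HahnSeries.single (0 : ℤ) (OfNat.ofNat n : K)).coeff (-1) = 0
  exact HahnSeries.coeff_single_of_ne (by norm_num)

theorem JK_sub_ne_zero : JK K - 1728 ≠ 0 := by
  intro h
  have h1 := congrArg (fun x : LaurentSeries K => x.coeff (-1)) h
  simp only [HahnSeries.coeff_zero, HahnSeries.coeff_sub, JK_eq, coeff_jqModC_neg_one] at h1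
  rw [coeff_ofNat_neg_one, sub_zero] at h1
  exact one_ne_zero h1

theorem h1ser_mul (c : ℕ → ℤ) :
    h1ser K c * thetaL (JK K) = -(Gser K c * JK K * (JK K - 1728)) := by
  rw [h1ser, div_mul_cancel₀ _ (thetaL_JK_ne_zero K)]

theorem h1ser_sq (c : ℕ → ℤ) : h1ser K c ^ 2 = h2ser K c * (JK K - 1728) := by
  rw [h2ser, div_mul_cancel₀ _ (JK_sub_ne_zero K)]

theorem h1ser_cube (c : ℕ → ℤ) : h1ser K c ^ 3 = h3ser K c * JK K := by
  rw [h3ser, div_mul_cancel₀ _ (JK_ne_zero K)]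

theorem u0ser_mul (c : ℕ → ℤ) : u0ser K c * thetaL (JK K) = Gser K c := by
  rw [u0ser, div_mul_cancel₀ _ (thetaL_JK_ne_zero K)]

theorem u0ser_eq (c : ℕ → ℤ) : u0ser K c = -h1ser K c / (JK K * (JK K - 1728)) := by
  rw [u0ser, h1ser]
  have h1 := thetaL_JK_ne_zero K
  have h2 := JK_ne_zero K
  have h3 := JK_sub_ne_zero K
  field_simp

variable {K} {L : Type*} [Field L] [Algebra ℚ L]

theorem coeffMap_thetaL (ι : K →+* L) (x : LaurentSeries K) :
    coeffMap ι (thetaL x) = thetaL (coeffMap ι x) := by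
  ext n
  rw [coeffMap_coeff, thetaL_coeff, thetaL_coeff, coeffMap_coeff, map_mul, map_intCast]

theorem coeffMap_JK (ι : K →+* L) : coeffMap ι (JK K) = JK L := by
  rw [JK_eq, JK_eq, coeffMap_jqModC]

theorem coeffMap_Gser (ι : K →+* L) (c : ℕ → ℤ) : coeffMap ι (Gser K c) = Gser L c := by
  rw [Gser, Gser, coeffMap_ofPowerSeries]
  congr 1
  ext n
  simp

theorem coeffMap_h1ser (ι : K →+* L) (c : ℕ → ℤ) : coeffMap ι (h1ser K c) = h1ser L c := by
  rw [h1ser, h1ser, map_div₀, map_neg, map_mul, map_mul, map_sub, coeffMap_thetaL, coeffMap_JK,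
    coeffMap_Gser, map_ofNat]

theorem coeffMap_h2ser (ι : K →+* L) (c : ℕ → ℤ) : coeffMap ι (h2ser K c) = h2ser L c := by
  rw [h2ser, h2ser, map_div₀, map_pow, map_sub, coeffMap_h1ser, coeffMap_JK, map_ofNat]

theorem coeffMap_h3ser (ι : K →+* L) (c : ℕ → ℤ) : coeffMap ι (h3ser K c) = h3ser L c := by
  rw [h3ser, h3ser, map_div₀, map_pow, coeffMap_h1ser, coeffMap_JK]

end Series

/-! ### Identification of the `q`-expansions -/

theorem Gser_eq_qExpansion (f : CuspForm (Gamma0 M) 2) (c : ℕ → ℤ)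
    (hc : ∀ n, qCoeff f n = (c n : ℂ)) :
    Gser ℂ c = HahnSeries.ofPowerSeries ℤ ℂ (qExpansion 1 f) := by
  rw [Gser]
  congr 1
  ext n
  rw [PowerSeries.coeff_mk, ← hc n]
  rfl

theorem hasQExp_const_ofNat (n : ℕ) [n.AtLeastTwo] :
    HasQExp 1 (fun _ : ℍ => (OfNat.ofNat n : ℂ)) (OfNat.ofNat n : LaurentSeries ℂ) := by
  have h := HasQExp.const 1 (OfNat.ofNat n : ℂ)
  rwa [map_ofNat] at h

theorem qexpFun_H1 (f : CuspForm (Gamma0 M) 2) (c : ℕ → ℤ) (hc : ∀ n, qCoeff f n = (c n : ℂ)) :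
    qexpFun 1 (H1 f) = h1ser ℂ c := by
  have h1 : HasQExp 1 (H1 f) (qexpFun 1 (H1 f)) := hasQExp_of_mem_goodRing (H1_mem_goodRing f)
  have hf : HasQExp 1 f (Gser ℂ c) := by
    rw [Gser_eq_qExpansion f c hc]
    exact hasQExp_cusp f
  have hj : HasQExp 1 JFun.jFun (JK ℂ) := hasQExp_jFun
  have hL := h1.mul hasQExp_D_jFun
  have hR := ((hf.mul hj).mul (hj.sub (hasQExp_const_ofNat 1728))).neg
  have hfun : H1 f * D JFun.jFun =
      -((f : ℍ → ℂ) * JFun.jFun * (JFun.jFun - fun _ => (1728 : ℂ))) := by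
    funext τ
    exact H1_mul_D_jFun f τ
  rw [hfun] at hL
  have := hL.unique hR
  rw [h1ser, eq_div_iff (thetaL_JK_ne_zero ℂ)]
  exact this

theorem qexpFun_H2 (f : CuspForm (Gamma0 M) 2) (c : ℕ → ℤ) (hc : ∀ n, qCoeff f n = (c n : ℂ)) :
    qexpFun 1 (H2 f) = h2ser ℂ c := by
  have h1 : HasQExp 1 (H1 f) (h1ser ℂ c) :=
    ⟨isMerInf_of_mem_goodRing (H1_mem_goodRing f), qexpFun_H1 f c hc⟩
  have h2 : HasQExp 1 (H2 f) (qexpFun 1 (H2 f)) := hasQExp_of_mem_goodRing (H2_mem_goodRing f)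
  have hj : HasQExp 1 JFun.jFun (JK ℂ) := hasQExp_jFun
  have hL := h1.pow 2
  have hR := h2.mul (hj.sub (hasQExp_const_ofNat 1728))
  have hfun : H1 f ^ 2 = H2 f * (JFun.jFun - fun _ => (1728 : ℂ)) := by
    funext τ
    exact H1_sq f τ
  rw [hfun] at hL
  have := hR.unique hL
  rw [h2ser, eq_div_iff (JK_sub_ne_zero ℂ)]
  exact this

theorem qexpFun_H3 (f : CuspForm (Gamma0 M) 2) (c : ℕ → ℤ) (hc : ∀ n, qCoeff f n = (c n : ℂ)) :
    qexpFun 1 (H3 f) = h3ser ℂ c := by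
  have h1 : HasQExp 1 (H1 f) (h1ser ℂ c) :=
    ⟨isMerInf_of_mem_goodRing (H1_mem_goodRing f), qexpFun_H1 f c hc⟩
  have h3 : HasQExp 1 (H3 f) (qexpFun 1 (H3 f)) := hasQExp_of_mem_goodRing (H3_mem_goodRing f)
  have hj : HasQExp 1 JFun.jFun (JK ℂ) := hasQExp_jFun
  have hL := h1.pow 3
  have hR := h3.mul hj
  have hfun : H1 f ^ 3 = H3 f * JFun.jFun := by
    funext τ
    exact H1_cube f τ
  rw [hfun] at hL
  have := hR.unique hL
  rw [h3ser, eq_div_iff (JK_ne_zero ℂ)]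
  exact this


/-! ### Realisation in the function field over `ℚ̄` -/

theorem h1ser_mem (f : CuspForm (Gamma0 M) 2) (c : ℕ → ℤ) (hc : ∀ n, qCoeff f n = (c n : ℂ)) :
    h1ser Kbar c ∈ modularFunctionFieldBar M := by
  apply mem_laurentBaseChange_of_coeffMap_mem iotaC (modularFunctionFieldFull M)
  rw [coeffMap_h1ser, ← qexpFun_H1 f c hc]
  exact qexpFun_mem_FC (H1_mem_goodRing f)

theorem h2ser_mem (f : CuspForm (Gamma0 M) 2) (c : ℕ → ℤ) (hc : ∀ n, qCoeff f n = (c n : ℂ)) :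
    h2ser Kbar c ∈ modularFunctionFieldBar M := by
  apply mem_laurentBaseChange_of_coeffMap_mem iotaC (modularFunctionFieldFull M)
  rw [coeffMap_h2ser, ← qexpFun_H2 f c hc]
  exact qexpFun_mem_FC (H2_mem_goodRing f)

theorem h3ser_mem (f : CuspForm (Gamma0 M) 2) (c : ℕ → ℤ) (hc : ∀ n, qCoeff f n = (c n : ℂ)) :
    h3ser Kbar c ∈ modularFunctionFieldBar M := by
  apply mem_laurentBaseChange_of_coeffMap_mem iotaC (modularFunctionFieldFull M)
  rw [coeffMap_h3ser, ← qexpFun_H3 f c hc]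
  exact qexpFun_mem_FC (H3_mem_goodRing f)

theorem coe_jF : ((jF M : FF M) : LaurentSeries Kbar) = JK Kbar := rfl

/-- **INC-AN, analytic half (REAL).**  The three weight-0 functions attached to a cusp form with
integral `q`-expansion are realised in `FF M = ℚ̄(X₀(M))`, and `G = u₀ · θ(j)` with `u₀ ∈ FF M`,
`u₀ · j (j - 1728) = - h₁`. -/
theorem incAn_real (f : CuspForm (Gamma0 M) 2) (c : ℕ → ℤ) (hc : ∀ n, qCoeff f n = (c n : ℂ)) :
    ∃ h₁ h₂ h₃ u₀ : FF M,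
      Realises M h₁ (H1 f) ∧ Realises M h₂ (H2 f) ∧ Realises M h₃ (H3 f) ∧
      h₁ ^ 2 = h₂ * (jF M - 1728) ∧ h₁ ^ 3 = h₃ * jF M ∧
      u₀ * (jF M * (jF M - 1728)) = -h₁ ∧
      (u₀ : LaurentSeries Kbar) * thetaL ((jF M : FF M) : LaurentSeries Kbar) = Gser Kbar c := by
  set h₁ : FF M := ⟨h1ser Kbar c, h1ser_mem f c hc⟩ with hh₁
  set h₂ : FF M := ⟨h2ser Kbar c, h2ser_mem f c hc⟩ with hh₂
  set h₃ : FF M := ⟨h3ser Kbar c, h3ser_mem f c hc⟩ with hh₃
  have hjj : jF M * (jF M - 1728) ≠ 0 := by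
    intro h
    have h' := congrArg (fun x : FF M => (x : LaurentSeries Kbar)) h
    simp only [MulMemClass.coe_mul, AddSubgroupClass.coe_sub, coe_jF, ZeroMemClass.coe_zero] at h'
    have e : ((1728 : FF M) : LaurentSeries Kbar) = 1728 := rfl
    rw [e] at h'
    exact mul_ne_zero (JK_ne_zero Kbar) (JK_sub_ne_zero Kbar) h'
  set u₀ : FF M := -h₁ / (jF M * (jF M - 1728)) with hu₀
  have hu₀c : (u₀ : LaurentSeries Kbar) = u0ser Kbar c := by
    rw [u0ser_eq]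
    rfl
  refine ⟨h₁, h₂, h₃, u₀, ⟨H1_mem_goodRing f, ?_⟩, ⟨H2_mem_goodRing f, ?_⟩,
    ⟨H3_mem_goodRing f, ?_⟩, ?_, ?_, ?_, ?_⟩
  · rw [qexpFun_H1 f c hc]
    exact (coeffMap_h1ser iotaC c).symm
  · rw [qexpFun_H2 f c hc]
    exact (coeffMap_h2ser iotaC c).symm
  · rw [qexpFun_H3 f c hc]
    exact (coeffMap_h3ser iotaC c).symm
  · apply Subtype.ext
    exact h1ser_sq Kbar c
  · apply Subtype.ext
    exact h1ser_cube Kbar c
  · rw [hu₀, div_mul_cancel₀ _ hjj]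
  · rw [hu₀c, coe_jF]
    exact u0ser_mul Kbar c

end Fermat.Agent.Ribet.H584
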