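/-
RIBET row 38, WALL-p, I3 leaf INC-AN, piece LOCAL + final assembly — helper584.

`incAn` : the `q`-expansion `G = ∑ cₙ qⁿ` (`cₙ ∈ ℤ`) of a cusp form of weight 2 on `Γ₀(M)` is a
holomorphic series on `X₀(M)` over `ℚ̄` (`I3.IsHoloSeries (AlgebraicClosure ℚ) M`), i.e.
`G dq/q` is a holomorphic differential of the function field `ℚ̄(X₀(M))`.

Inputs: the analytic half (`IncAnQExp.incAn_real`, `IncAnGood`), the S29/H282 places dictionary
(every place of `FF M` is induced by a Taylor expansion or by the expansion at a cusp),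
helper763's algebraic criterion (`H763.IncAn.holo_at_place`), and the formal local computation
`IncAnOrd`.
-/
import Fermat.Agent.Ribet.H584.IncAnQExp
import Fermat.Agent.Ribet.H584.IncAnOrd
import Fermat.Agent.Ribet.H584.IncAnCusp
import Fermat.Agent.S29.H282.DictC
import Fermat.Agent.S18.H602.BaseChange

set_option autoImplicit false

noncomputable section

open UpperHalfPlane ModularCurve AlgebraicCurve CongruenceSubgroup
open scoped MatrixGroups Manifold

namespace Fermat.Agent.Ribet.H584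

open Fermat.Agent.S24 Fermat.Agent.S24.H997 Fermat.Agent.S24.H648 Fermat.Agent.S24.H708
  Fermat.Agent.S24.Deg457 Fermat.Agent.S24.H624
open Fermat.Agent.S29 Fermat.Agent.S29.M4b Fermat.Agent.S29.H282

variable {M : ℕ} [NeZero M]

theorem isAvatar_of_realises {h : FF M} {H : ℍ → ℂ} (hr : Realises M h H) :
    IsAvatar iotaC (analyticCore M).toHolBase (h : FFK Kbar M)
      (⟨H, mem_holN_of_mem_goodRing hr.1⟩ : (analyticCore M).Hol) :=
  isAvatar_of_mem_goodRing iotaC hr.1 hr.2

theorem pointData_cast {B : HolBase M} (Q : Expansion B → Prop) {a a' : ℂ} {ε ε' : SL(2, ℤ)}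
    (e : PointData B a ε = PointData B a' ε') (ha : a = a') (hε : ε = ε')
    (P : PointData B a' ε') (hP : Q P.X) : Q (Eq.mpr e P).X := by
  subst ha
  subst hε
  exact hP

theorem taylor_order_nonneg (τ₀ : ℍ) (h' : (holBase M).Hol) :
    0 ≤ (((holBase M).taylorExpansion (holBase_isHolo M) τ₀).E h').order := by
  by_cases hh : h' = 0
  · rw [hh, map_zero, HahnSeries.order_zero]
  · rw [order_taylorExpansion (holBase_isHolo M) hh τ₀]
    exact Int.natCast_nonneg _

theorem pointAt_X_order_nonneg (a : Kbar) (h' : (analyticCore M).Hol) :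
    0 ≤ ((pointAt iotaC (analyticCore M) a).X.E h').order := by
  unfold pointAt
  split_ifs with h0 h1
  · refine pointData_cast (fun X => 0 ≤ (X.E h').order) _ ?_ ?_ _ ?_
    · rfl
    · rfl
    refine pointData_cast (fun X => 0 ≤ (X.E h').order) _ ?_ ?_ _ ?_
    · rfl
    · rw [if_pos h0]
    refine pointData_cast (fun X => 0 ≤ (X.E h').order) _ ?_ ?_ _ ?_
    · exact h0
    · rfl
    exact taylor_order_nonneg _ h'
  · refine pointData_cast (fun X => 0 ≤ (X.E h').order) _ ?_ ?_ _ ?_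
    · rfl
    · rfl
    refine pointData_cast (fun X => 0 ≤ (X.E h').order) _ ?_ ?_ _ ?_
    · rfl
    · rw [if_neg h0]
    refine pointData_cast (fun X => 0 ≤ (X.E h').order) _ ?_ ?_ _ ?_
    · rfl
    · rw [if_pos h1]
    refine pointData_cast (fun X => 0 ≤ (X.E h').order) _ ?_ ?_ _ ?_
    · exact h1
    · rfl
    exact taylor_order_nonneg _ h'
  · refine pointData_cast (fun X => 0 ≤ (X.E h').order) _ ?_ ?_ _ ?_
    · rfl
    · rfl
    refine pointData_cast (fun X => 0 ≤ (X.E h').order) _ ?_ ?_ _ ?_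
    · rfl
    · rw [if_neg h0]
    refine pointData_cast (fun X => 0 ≤ (X.E h').order) _ ?_ ?_ _ ?_
    · rfl
    · rw [if_neg h1]
    exact taylor_order_nonneg _ h'

/-- realised functions are regular at the finite places -/
theorem order_sigma_fin_nonneg {h : FF M} {H : ℍ → ℂ} (hr : Realises M h H) (a : Kbar)
    (x : XX M) : 0 ≤ ((dataFinK iotaC (analyticCore M) a).σ x h).order := by
  have hav := isAvatar_of_realises hr
  obtain ⟨g, rfl⟩ := QuotientGroup.mk_surjective x
  rw [dataFinK_σ, hav.sigmaXK_mk_eq]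
  exact pointAt_X_order_nonneg a _

/-- the expansion at `∞` of a translate, in the `HasQExp` language -/
theorem hasQExp_qexp (h : (holBase M).Hol) : HasQExp M (h : ℍ → ℂ) ((holBase M).qexp h) := by
  have hinf : InfExp M (h : ℍ → ℂ) ((holBase M).qexp h) := expInf_spec (holToExp M h)
  exact HasQExp.of_hasSum ((holBase_isHolo M).mdiff _ h.2) fun τ => hinf τ

/-- the cusp bound for `h₁` -/
theorem order_sigma_inf_H1 (f : CuspForm (Gamma0 M) 2) {h₁ : FF M}
    (hr : Realises M h₁ (H1 f)) (x : XX M) :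
    (dataInfK iotaC (analyticCore M)).σ x h₁ = 0 ∨
      1 - (M : ℤ) ≤ ((dataInfK iotaC (analyticCore M)).σ x h₁).order := by
  have hav := isAvatar_of_realises hr
  obtain ⟨g, rfl⟩ := QuotientGroup.mk_surjective x
  rw [dataInfK_σ, hav.sigmaXK_mk_eq]
  set h' : (holBase M).Hol := (holBase M).compH g⁻¹ ⟨H1 f, mem_holN_of_mem_goodRing hr.1⟩
    with hh'
  have hq : HasQExp M (h' : ℍ → ℂ) ((holBase M).qexp h') := hasQExp_qexp h'
  by_cases h0 : (holBase M).qexp h' = 0
  · left
    exact h0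
  · right
    refine order_ge_of_isZeroAtImInfty_mul_q hq ?_ h0
    exact isZeroAtImInfty_H1_smul_mul_q f g⁻¹


/-! ### The local condition at every place -/

theorem thetaL_eq_S28 {k : Type*} [Field k] (x : LaurentSeries k) :
    thetaL x = Fermat.Agent.S28.thetaL k x := by
  ext n
  rfl

theorem C_ofNat (n : ℕ) [n.AtLeastTwo] :
    (HahnSeries.C (OfNat.ofNat n : ℂ) : LaurentSeries ℂ) = OfNat.ofNat n :=
  map_ofNat _ n

/-- transport of the relation `u₀ · j (j - 1728) = - h₁` along an embedding -/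
theorem sigma_rel (σ : FF M →+* LaurentSeries ℂ) {u₀ h₁ : FF M}
    (hU : u₀ * (jF M * (jF M - 1728)) = -h₁) :
    σ u₀ * (σ (jF M) * (σ (jF M) - HahnSeries.C 1728)) = -σ h₁ := by
  have := congrArg σ hU
  rw [map_mul, map_mul, map_sub, map_neg, map_ofNat] at this
  rw [C_ofNat]
  exact this

theorem sigma_rel2 (σ : FF M →+* LaurentSeries ℂ) {h₁ h₂ : FF M}
    (h12 : h₁ ^ 2 = h₂ * (jF M - 1728)) :
    σ h₁ ^ 2 = σ h₂ * (σ (jF M) - HahnSeries.C 1728) := by
  have := congrArg σ h12
  rw [map_pow, map_mul, map_sub, map_ofNat] at this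
  rw [C_ofNat]
  exact this

theorem sigma_rel3 (σ : FF M →+* LaurentSeries ℂ) {h₁ h₃ : FF M}
    (h13 : h₁ ^ 3 = h₃ * jF M) : σ h₁ ^ 3 = σ h₃ * σ (jF M) := by
  have := congrArg σ h13
  rwa [map_pow, map_mul] at this

/-- **LOCAL.**  For every place of `FF M` there is an embedding into `ℂ((z))` defining it, in which
`u₀ dj` is regular. -/
theorem exists_sigma_local (f : CuspForm (Gamma0 M) 2) {h₁ h₂ h₃ u₀ : FF M}
    (r1 : Realises M h₁ (H1 f)) (r2 : Realises M h₂ (H2 f)) (r3 : Realises M h₃ (H3 f))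
    (h12 : h₁ ^ 2 = h₂ * (jF M - 1728)) (h13 : h₁ ^ 3 = h₃ * jF M)
    (hU : u₀ * (jF M * (jF M - 1728)) = -h₁) (w : Place Kbar (FF M)) :
    ∃ σ : FF M →+* LaurentSeries ℂ,
      (∀ c : Kbar, Fermat.Agent.S28.thetaL ℂ (σ (algebraMap Kbar (FF M) c)) = 0) ∧
      (∀ x : FF M, x ∈ w.toValuationSubring ↔ 0 ≤ (σ x).order) ∧
      (σ u₀ * Fermat.Agent.S28.thetaL ℂ (σ (jF M)) = 0 ∨
        1 ≤ (σ u₀ * Fermat.Agent.S28.thetaL ℂ (σ (jF M))).order) := by
  rcases exists_placeOf_eqK iotaC (analyticCore M) w with ⟨x, rfl⟩ | ⟨a, x, rfl⟩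
  · -- a cusp
    set L := dataInfK (K := Kbar) iotaC (analyticCore M) with hL
    refine ⟨L.σ x, fun c => ?_, fun y => H117.mem_placeOf_iff L x y, ?_⟩
    · rw [L.σ_const, Fermat.Agent.S28.h88_thetaL_C]
    · have hM : 0 < M := Nat.pos_of_ne_zero (NeZero.ne M)
      have ht := L.σ_t_order x
      have hm : L.m = M := dataInfK_m iotaC (analyticCore M)
      have hj : (L.σ x (jF M)).order = -(M : ℤ) := by
        have e : L.σ x (jFK Kbar M)⁻¹ = (L.σ x (jF M))⁻¹ := map_inv₀ _ _
        rw [e, H117.order_inv', hm] at ht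
        omega
      exact holo_cusp _ _ _ M hM hj (sigma_rel _ hU) (order_sigma_inf_H1 f r1 x)
  · -- a finite point
    set L := dataFinK iotaC (analyticCore M) a with hL
    refine ⟨L.σ x, fun c => ?_, fun y => H117.mem_placeOf_iff L x y, ?_⟩
    · rw [L.σ_const, Fermat.Agent.S28.h88_thetaL_C]
    · have ht := L.σ_t_order x
      have e : L.σ x (jFK Kbar M - algebraMap Kbar (FFK Kbar M) a)
          = L.σ x (jF M) - HahnSeries.C (iotaC a) := by
        rw [map_sub, L.σ_const]
        rfl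
      rw [e] at ht
      exact holo_fin _ _ _ _ _ (iotaC a) L.m L.m_pos ht (sigma_rel _ hU) (sigma_rel2 _ h12)
        (sigma_rel3 _ h13) (order_sigma_fin_nonneg r1 a x) (order_sigma_fin_nonneg r2 a x)
        (order_sigma_fin_nonneg r3 a x)


/-! ### Assembly -/

open Fermat.Agent.Ribet.H764 in
/-- `I3.IsHoloSeries` for an arbitrary subfield of `k((q))`. -/
def IsHoloOn (k : Type) [Field k] (F : IntermediateField k (LaurentSeries k))
    (g : PowerSeries k) : Prop :=
  ∀ (Q : Place k F) (t : F), Q.ord t = 1 →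
    ∃ (u : F) (t' : LaurentSeries k),
      I3.IsTheta (t : LaurentSeries k) t' ∧ u ∈ Q.toValuationSubring ∧
        HahnSeries.ofPowerSeries ℤ k g = (u : LaurentSeries k) * t'

open Fermat.Agent.Ribet.H764 in
theorem isHoloSeries_iff_isHoloOn (k : Type) [Field k] (N : ℕ) [NeZero N] (g : PowerSeries k) :
    I3.IsHoloSeries k N g ↔ IsHoloOn k (modularFunctionFieldFullC k N) g := Iff.rfl

/-- holomorphy on the function field `FF M = ℚ̄(X₀(M))` -/
theorem isHoloOn_bar (f : CuspForm (Gamma0 M) 2) (c : ℕ → ℤ)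
    (hc : ∀ n, ModularFormClass.qCoeff f n = (c n : ℂ)) (g : PowerSeries Kbar)
    (hg : ∀ n, PowerSeries.coeff n g = (c n : Kbar)) :
    IsHoloOn Kbar (modularFunctionFieldBar M) g := by
  obtain ⟨h₁, h₂, h₃, u₀, r1, r2, r3, h12, h13, hU, hG⟩ := incAn_real f c hc
  have : CharZero Kbar := algebraRat.charZero Kbar
  have hfd : FiniteDimensional ↥(IntermediateField.adjoin Kbar {jFK Kbar M}) (FFK Kbar M) :=
    finiteDimensional_adjoin_jFK iotaC M
  have hAlg : Algebra.IsAlgebraic ↥(IntermediateField.adjoin Kbar {jFK Kbar M}) (FFK Kbar M) :=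
    Algebra.IsAlgebraic.of_finite _ _
  have halg : ∀ x : FF M, IsAlgebraic (IntermediateField.adjoin Kbar {jF M}) x := fun x =>
    hAlg.isAlgebraic x
  have hgG : HahnSeries.ofPowerSeries ℤ Kbar g = Gser Kbar c := by
    rw [Gser]
    congr 1
    ext n
    rw [hg n, PowerSeries.coeff_mk]
  have hg' : HahnSeries.ofPowerSeries ℤ Kbar g
      = (u₀ : LaurentSeries Kbar) * Fermat.Agent.S28.thetaL Kbar ((jF M : FF M) : LaurentSeries Kbar) := by
    rw [hgG, ← hG, thetaL_eq_S28]
  intro Q t ht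
  obtain ⟨σ, h1, h2, h3⟩ := exists_sigma_local f r1 r2 r3 h12 h13 hU Q
  exact Fermat.Agent.Ribet.H763.IncAn.holo_at_place (modularFunctionFieldBar M) (jF M) u₀ halg g
    hg' Q σ h1 h2 h3 t ht

open Fermat.Agent.Ribet.H764 in
/-- **INC-AN.**  The `q`-expansion of a cusp form of weight 2 on `Γ₀(M)` with integral
coefficients is a holomorphic series on `X₀(M)` over `ℚ̄`. -/
theorem incAn (M : ℕ) [NeZero M] (g : PowerSeries (AlgebraicClosure ℚ))
    (hg : I3.IsRedOfForm (AlgebraicClosure ℚ) M g) :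
    I3.IsHoloSeries (AlgebraicClosure ℚ) M g := by
  obtain ⟨f, c, hc, hgc⟩ := hg
  rw [isHoloSeries_iff_isHoloOn, ← Fermat.Agent.S18.H602.modularFunctionFieldBar_eq]
  exact isHoloOn_bar f c hc g hgc

end Fermat.Agent.Ribet.H584
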